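import Fermat.Agent.M59.SinkA.PsiEig.Main
import Fermat.Agent.M59.SinkA.Dich
import Fermat.Agent.M59.SinkA.Tor
import Fermat.Agent.M59.SinkA.Old0

/-!
M59 / SINK A: [GEO-LOW] from [BIG] alone (helper20).  Prefix `m59sa_`.

Five of the six cells of `m59sa_FrameOK (m59sa_frame2 P M hpM)` are CLOSED over main:
[PSI-EIG] `m59sap_psiEig`, [PSI-INV] `m59sap_psiInv`, [DICH] `m59sadq_dich`, [TOR] `m59sat_tor`,
[OLD0] `m59sac_old0_frame2`.  Hence

`m59sa_geoLow_of_big : (∀ P M hpM, P.p = 3 ∨ P.p = 5 → semistable → irreducible → Squarefree M →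
   2 ∣ M → m59sa_Big_stmt (m59sa_frame2 P M hpM)) → m59sa_GeoLow_stmt`.
-/

set_option autoImplicit false

namespace Fermat.Agent.M59

/-- the frame is OK as soon as [BIG] holds for it. -/
theorem m59sa_frameOK_of_big (P : m59sa_Pkg) (M : ℕ) [NeZero M] [NeZero (M * P.p)]
    (hpM : ¬ P.p ∣ M) (hBig : m59sa_Big_stmt (m59sa_frame2 P M hpM)) :
    m59sa_FrameOK (m59sa_frame2 P M hpM) where
  psiEig := m59sap_psiEig P M hpM
  psiInv := m59sap_psiInv P M hpM
  dich := m59sadq_dich P M hpM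
  tor := m59sat_tor P M hpM
  old0 := m59sac_old0_frame2 P M hpM
  big := hBig

/-- **[BIG-W]**: the one remaining cell of [GEO-LOW]. -/
def m59sa_BigW_stmt : Prop :=
  ∀ (P : m59sa_Pkg) (M : ℕ) [NeZero M] [NeZero (M * P.p)] (hpM : ¬ P.p ∣ M),
    P.p = 3 ∨ P.p = 5 → P.W.IsSemistableModel → P.W.ModRepIsIrreducible P.p →
    Squarefree M → 2 ∣ M → m59sa_Big_stmt (m59sa_frame2 P M hpM)

/-- **[GEO-LOW] from [BIG-W].** -/
theorem m59sa_geoLow_of_big (h : m59sa_BigW_stmt) : m59sa_GeoLow_stmt :=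
  m59sa_geoLow_of fun P M _ _ hpM hp hW hirr hsq h2M =>
    m59sa_frameOK_of_big P M hpM (h P M hpM hp hW hirr hsq h2M)

end Fermat.Agent.M59
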