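import Fermat.Agent.M59.SinkA.Pkg
import Fermat.Agent.S44.Frame2
import Fermat.Agent.S44.ChiRam.Main
import Fermat.Agent.S44.BLR.ESide
import Fermat.Agent.TW.Easy.DetFrob

/-!
M59 / SINK A, LEVEL 3: [GEO-LOW] from the frame cells (helper20).  Prefix `m59sa_`.

Twin of `S44/Low/Seams.lean` (helper25; design helper29 #3790/#3821) for a package
`P : m59sa_Pkg` (odd prime `p`, integral `W`), REORDERED as in helper29 #5131 (L1): the ordinary
basis `x, v, a` is not an input, it is DERIVED from the geometry once [OLD0] fails: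

* `E_χ := {y ∈ W[p] : inertia acts on y through χ}`;
* [PSI-INV] + [DICH] + [TOR]: `σ y - y ∈ E_χ` for every `y` and every `σ` in the inertia group
  (`ι (W[p])` lies in `ker α_* ∩ ker β_*`);
* `det = χ` (main: `twf_det_cyclo` + `s44be_trace_det_frob`) and [CHI-RAM] (main: `s44c_chiRam`):
  `E_χ ≠ 0`, `E_χ ≠ W[p]`, so `E_χ` is a LINE `⟨x⟩`; `v ∉ E_χ`; `σ v = v + a(σ) x`;
* the hypothesis `m59sa_PeuAt` gives the unit radical `β`; [BIG] concludes.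

`m59sa_geoLow_of : (∀ P M …, m59sa_FrameOK (m59sa_frame2 P M hpM)) → m59sa_GeoLow_stmt` (PROVED).
The cells (fields of `m59sa_FrameOK`): `psiEig`, `psiInv` (NEW), `dich`, `tor`, `old0`, `big`.
-/

set_option autoImplicit false
set_option linter.unusedSectionVars false
set_option linter.style.haveILetI false

noncomputable section

namespace Fermat.Agent.M59

open WeierstrassCurve WeierstrassCurve.Affine WeierstrassCurve.Affine.Point ModularCurve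
open Fermat.Agent.S44 Fermat.Agent.S58 Fermat.Agent.S35 Fermat.Agent.SS Fermat.Agent.S13
open Fermat.Agent.TW
open scoped WeierstrassCurve.Affine

/-- the objects on which the geometric cells of [GEO-LOW] agree (twin of `s44_Frame`) -/
structure m59sa_Frame (P : m59sa_Pkg) (M : ℕ) [NeZero M] [NeZero (M * P.p)] where
  /-- a place of `ℚ̄` above `p` -/
  A : ValuationSubring s44_Qb
  /-- a primitive `p`-th root of unity -/
  ζ : s44_Qb
  /-- `α_* : J₀(M p) → J₀(M)` -/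
  as : JZero (M * P.p) →+ JZero M
  /-- `β_* : J₀(M p) → J₀(M)` -/
  bs : JZero (M * P.p) →+ JZero M
  /-- `Ψ_{w_∞}(z) = 0` -/
  D1inf : JZero (M * P.p) → Prop
  /-- `Ψ_{w_0}(z) = 0` -/
  D10 : JZero (M * P.p) → Prop
  /-- `z` is split at both components -/
  Split : JZero (M * P.p) → Prop

section

variable {P : m59sa_Pkg} {M : ℕ} [NeZero M] [NeZero (M * P.p)] (Fr : m59sa_Frame P M)

/-- the inertia group of the frame -/
def m59sa_Frame.Γ : Subgroup s44_G := Fr.A.inertiaSubgroupIn ℚ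

/-- `σ z = χ(σ) z` for all `σ` in the inertia group: `σ` acts on `z` as it acts on `ζ`. -/
def m59sa_Frame.ChiEigen {Z : Type*} [AddMonoid Z] [SMul s44_G Z] (z : Z) : Prop :=
  ∀ σ ∈ Fr.Γ, ∀ k : ℕ, σ Fr.ζ = Fr.ζ ^ k → σ • z = k • z

/-- twin of `s44_IsLocBasis`: an ordinary-shaped basis with its unit radical. -/
structure m59sa_IsLocBasis (x v : m59sa_PTors P) (a : s44_G → ℕ) (β : s44_Qb) : Prop where
  eig : Fr.ChiEigen x
  ext : ∀ σ ∈ Fr.Γ, σ • v = v + a σ • x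
  indep : ∀ m : ℤ, v ≠ m • x
  β_ne : β ≠ 0
  β_mem : β ∈ Fr.A
  β_inv_mem : β⁻¹ ∈ Fr.A
  β_eig : ∀ σ ∈ Fr.Γ, σ β = Fr.ζ ^ a σ * β

/-- **[PSI-EIG]** -/
def m59sa_PsiEig_stmt : Prop :=
  ∀ z : JZero (M * P.p), P.p • z = 0 → Fr.ChiEigen z → Fr.D1inf z ∧ Fr.D10 z

/-- **[PSI-INV]** (NEW; first half of the landed proof of [PSI-EIG]): inertia acts trivially on
`Ψ_w`. -/
def m59sa_PsiInv_stmt : Prop :=
  ∀ z : JZero (M * P.p), P.p • z = 0 → ∀ σ ∈ Fr.Γ, Fr.D1inf (σ • z - z) ∧ Fr.D10 (σ • z - z)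

/-- **[DICH]** -/
def m59sa_Dich_stmt : Prop :=
  ∀ z : JZero (M * P.p), P.p • z = 0 → Fr.as z = 0 → Fr.bs z = 0 → Fr.D1inf z → Fr.D10 z →
    Fr.Split z

/-- **[TOR]** -/
def m59sa_Tor_stmt : Prop :=
  ∀ z : JZero (M * P.p), P.p • z = 0 → Fr.Split z → Fr.ChiEigen z

/-- **[OLD0]** -/
def m59sa_Old0_stmt : Prop :=
  ∀ (ι : m59sa_PTors P →+ JZero (M * P.p)), m59sa_IsCopy P.W P.p (M * P.p) ι →
    (∃ y : m59sa_PTors P, Fr.as (ι y) ≠ 0 ∨ Fr.bs (ι y) ≠ 0) → P.ModularRepOfLevel M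

/-- **[BIG]** -/
def m59sa_Big_stmt : Prop :=
  ∀ (ι : m59sa_PTors P →+ JZero (M * P.p)), m59sa_IsCopy P.W P.p (M * P.p) ι →
    ∀ (x v : m59sa_PTors P) (a : s44_G → ℕ) (β : s44_Qb), m59sa_IsLocBasis Fr x v a β →
      (∀ y : m59sa_PTors P, Fr.as (ι y) = 0 ∧ Fr.bs (ι y) = 0) →
      Fr.Split (ι x) → ¬ (Fr.D1inf (ι v) ∧ Fr.D10 (ι v)) → P.ModularRepOfLevel M

/-- all cells for one frame -/
structure m59sa_FrameOK : Prop where
  psiEig : m59sa_PsiEig_stmt Fr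
  psiInv : m59sa_PsiInv_stmt Fr
  dich : m59sa_Dich_stmt Fr
  tor : m59sa_Tor_stmt Fr
  old0 : m59sa_Old0_stmt Fr
  big : m59sa_Big_stmt Fr

end

/-- **the frame** (twin of `s44_frame2`). -/
def m59sa_frame2 (P : m59sa_Pkg) (M : ℕ) [NeZero M] [NeZero (M * P.p)] (hpM : ¬ P.p ∣ M) :
    m59sa_Frame P M :=
  { A := s44f_A P.p P.pp
    ζ := s44f_zeta P.p P.pp
    as := s35p_P1J M P.p
    bs := s35p_P2J M P.p
    D1inf := fun z => ∃ c : s44_Qb, c ≠ 0 ∧ c ∈ (s44f_A P.p P.pp).nonunits ∧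
      s44f_Depth2 (M * P.p) (s44f_A P.p P.pp) P.p c (AlgHom.id _ _) z
    D10 := fun z => ∃ c : s44_Qb, c ≠ 0 ∧ c ∈ (s44f_A P.p P.pp).nonunits ∧
      s44f_Depth2 (M * P.p) (s44f_A P.p P.pp) P.p c (ssm_al_Wbar M P.p P.pp hpM) z
    Split := fun z => ∀ c : s44_Qb, c ≠ 0 →
      s44f_Depth2 (M * P.p) (s44f_A P.p P.pp) P.p c (AlgHom.id _ _) z ∧
      s44f_Depth2 (M * P.p) (s44f_A P.p P.pp) P.p c (ssm_al_Wbar M P.p P.pp hpM) z }

section API

variable (P : m59sa_Pkg) (M : ℕ) [NeZero M] [NeZero (M * P.p)] (hpM : ¬ P.p ∣ M)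

theorem m59sa_frame2_A : (m59sa_frame2 P M hpM).A = s44f_A P.p P.pp := rfl

theorem m59sa_frame2_zeta : (m59sa_frame2 P M hpM).ζ = s44f_zeta P.p P.pp := rfl

theorem m59sa_frame2_A_liesOver : (m59sa_frame2 P M hpM).A.LiesOverPrime P.p :=
  s44f_A_liesOver P.p P.pp

theorem m59sa_frame2_zeta_spec : IsPrimitiveRoot (m59sa_frame2 P M hpM).ζ P.p :=
  s44f_zeta_spec P.p P.pp

theorem m59sa_frame2_as : (m59sa_frame2 P M hpM).as = s35p_P1J M P.p := rfl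

theorem m59sa_frame2_bs : (m59sa_frame2 P M hpM).bs = s35p_P2J M P.p := rfl

theorem m59sa_frame2_D1inf (z : JZero (M * P.p)) :
    (m59sa_frame2 P M hpM).D1inf z ↔ ∃ c : s44_Qb, c ≠ 0 ∧ c ∈ (s44f_A P.p P.pp).nonunits ∧
      s44f_Depth2 (M * P.p) (s44f_A P.p P.pp) P.p c (AlgHom.id _ _) z := Iff.rfl

theorem m59sa_frame2_D10 (z : JZero (M * P.p)) :
    (m59sa_frame2 P M hpM).D10 z ↔ ∃ c : s44_Qb, c ≠ 0 ∧ c ∈ (s44f_A P.p P.pp).nonunits ∧
      s44f_Depth2 (M * P.p) (s44f_A P.p P.pp) P.p c (ssm_al_Wbar M P.p P.pp hpM) z := Iff.rfl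

theorem m59sa_frame2_Split (z : JZero (M * P.p)) :
    (m59sa_frame2 P M hpM).Split z ↔ ∀ c : s44_Qb, c ≠ 0 →
      s44f_Depth2 (M * P.p) (s44f_A P.p P.pp) P.p c (AlgHom.id _ _) z ∧
      s44f_Depth2 (M * P.p) (s44f_A P.p P.pp) P.p c (ssm_al_Wbar M P.p P.pp hpM) z := Iff.rfl

end API

/-! ### `det = χ` on `W[p]` -/

/-- `σ ζ = ζ ^ k` for a primitive `ζ` gives `σ ζ' = ζ' ^ k` for every `p`-th root of unity. -/
theorem m59sa_all_roots {p : ℕ} (hp : 0 < p) {ζ : s44_Qb} (hζ : IsPrimitiveRoot ζ p) (σ : s44_G)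
    (k : ℕ) (hk : σ ζ = ζ ^ k) (ζ' : s44_Qb) (hζ' : ζ' ^ p = 1) : σ ζ' = ζ' ^ k := by
  haveI : NeZero p := ⟨hp.ne'⟩
  obtain ⟨j, -, rfl⟩ := hζ.eq_pow_of_pow_eq_one hζ'
  rw [map_pow, hk, ← pow_mul, ← pow_mul, mul_comm]

/-- **`det ρ̄ = χ`** on `W[p]` as soon as `W[p]` is irreducible and residually modular. -/
theorem m59sa_det_chi (W : WeierstrassCurve ℤ) (hΔ : W.Δ ≠ 0) (p : ℕ) [Fact p.Prime]
    (hp2 : p ≠ 2) (hirr : W.ModRepIsIrreducible p) (N : ℕ) [NeZero N]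
    (hR : W.IsResiduallyModularOfLevel p N) {ζ : s44_Qb} (hζ : IsPrimitiveRoot ζ p)
    (σ : s44_G) (k : ℕ) (hk : σ ζ = ζ ^ k) :
    LinearMap.det (galoisRepModuleEnd (K := s58_Qb) ℚ (s58_WQ W) p σ) = ((k : ℕ) : ZMod p) := by
  have hpp : p.Prime := Fact.out
  obtain ⟨f, 𝔪, hf, h𝔪, hp𝔪, hcong⟩ := hR
  refine twf_det_cyclo W hΔ p hp2 N (NeZero.ne N) ?_ σ k (m59sa_all_roots hpp.pos hζ σ k hk)
  intro ℓ hℓ hg hℓN hℓp A hA τ hτ
  exact (s44be_trace_det_frob W hΔ p hp2 hirr hf 𝔪 h𝔪 hp𝔪 hcong ℓ hℓ hg hℓN hℓp A hA τ hτ).2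

/-! ### linear algebra on the plane `W[p]` -/

section Line

variable {p : ℕ} [Fact p.Prime] {V : Type*} [AddCommGroup V] [Module (ZMod p) V]

/-- a `ZMod p`-scalar acts as its value. -/
theorem m59sa_zmod_smul (c : ZMod p) (x : V) : c • x = c.val • x := by
  conv_lhs => rw [← ZMod.natCast_zmod_val c]
  rw [Nat.cast_smul_eq_nsmul]

/-- a proper nonzero subspace of a plane over `𝔽_p` is the line through any of its nonzero
vectors. -/
theorem m59sa_line (hV : Module.finrank (ZMod p) V = 2) (E : Submodule (ZMod p) V)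
    {x v : V} (hx : x ∈ E) (hx0 : x ≠ 0) (hv : v ∉ E) :
    ∀ w ∈ E, ∃ n : ℕ, w = n • x := by
  haveI : Module.Finite (ZMod p) V := Module.finite_of_finrank_pos (by rw [hV]; norm_num)
  have hlt : E ≠ ⊤ := fun h => hv (h ▸ Submodule.mem_top)
  have h1 : Module.finrank (ZMod p) E < 2 := hV ▸ Submodule.finrank_lt hlt
  have h2 : 0 < Module.finrank (ZMod p) E :=
    Module.finrank_pos_iff_exists_ne_zero.mpr ⟨⟨x, hx⟩, fun h => hx0 (congrArg Subtype.val h)⟩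
  have h3 : Module.finrank (ZMod p) E = 1 := by omega
  intro w hw
  obtain ⟨c, hc⟩ := (finrank_eq_one_iff_of_nonzero' (⟨x, hx⟩ : E)
    (fun h => hx0 (congrArg Subtype.val h))).mp h3 ⟨w, hw⟩
  refine ⟨c.val, ?_⟩
  have := congrArg Subtype.val hc
  rw [← m59sa_zmod_smul]
  exact this.symm

end Line

/-! ### [GEO-LOW] from the cells -/

/-- **[GEO-LOW] for a package, from the cells of its frame.** -/
theorem m59sa_geoLow_pkg (P : m59sa_Pkg) (M : ℕ) [NeZero M] [NeZero (M * P.p)] (hpM : ¬ P.p ∣ M)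
    (hirr : P.W.ModRepIsIrreducible P.p)
    (hR : P.W.IsResiduallyModularOfLevel P.p (M * P.p))
    (hFr : m59sa_FrameOK (m59sa_frame2 P M hpM))
    (ι : m59sa_PTors P →+ JZero (M * P.p)) (hι : m59sa_IsCopy P.W P.p (M * P.p) ι)
    (hPeu : m59sa_PeuAt P.W P.p (s44f_A P.p P.pp) (s44f_zeta P.p P.pp)) :
    P.W.IsResiduallyModularOfLevel P.p M := by
  classical
  haveI : Fact P.p.Prime := ⟨P.pp⟩
  have hζ : IsPrimitiveRoot (m59sa_frame2 P M hpM).ζ P.p := m59sa_frame2_zeta_spec P M hpM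
  have hA : (m59sa_frame2 P M hpM).A.LiesOverPrime P.p := m59sa_frame2_A_liesOver P M hpM
  by_cases hold : ∃ y : m59sa_PTors P,
      (m59sa_frame2 P M hpM).as (ι y) ≠ 0 ∨ (m59sa_frame2 P M hpM).bs (ι y) ≠ 0
  · exact hFr.old0 ι hι hold
  push Not at hold
  have hpι : ∀ y : m59sa_PTors P, P.p • ι y = 0 := fun y => by
    rw [← map_nsmul, m59sa_tors_smul, _root_.map_zero]
  have heig : ∀ y : m59sa_PTors P, (m59sa_frame2 P M hpM).ChiEigen y →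
      (m59sa_frame2 P M hpM).ChiEigen (ι y) := by
    intro y hy σ hσ k hk
    rw [← hι.equiv, hy σ hσ k hk, map_nsmul]
  have heig' : ∀ y : m59sa_PTors P, (m59sa_frame2 P M hpM).ChiEigen (ι y) →
      (m59sa_frame2 P M hpM).ChiEigen y := by
    intro y hy σ hσ k hk
    apply hι.inj
    rw [hι.equiv, hy σ hσ k hk, map_nsmul]
  -- `Ψ = 0` ⟹ `χ`-eigen
  have hE : ∀ y : m59sa_PTors P, (m59sa_frame2 P M hpM).D1inf (ι y) →
      (m59sa_frame2 P M hpM).D10 (ι y) → (m59sa_frame2 P M hpM).ChiEigen y := fun y h1 h2 =>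
    heig' y (hFr.tor (ι y) (hpι y) (hFr.dich (ι y) (hpι y) (hold y).1 (hold y).2 h1 h2))
  -- inertia moves every `y` inside `E_χ`
  have hinv : ∀ σ ∈ (m59sa_frame2 P M hpM).Γ, ∀ y : m59sa_PTors P,
      (m59sa_frame2 P M hpM).ChiEigen (σ • y - y) := by
    intro σ hσ y
    obtain ⟨h1, h2⟩ := hFr.psiInv (ι y) (hpι y) σ hσ
    have e : σ • ι y - ι y = ι (σ • y - y) := by rw [map_sub, hι.equiv]
    rw [e] at h1 h2
    exact hE _ h1 h2
  -- the subspace `E_χ`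
  let E : Submodule (ZMod P.p) (m59sa_PTors P) :=
    { carrier := {y | (m59sa_frame2 P M hpM).ChiEigen y}
      add_mem' := fun {y y'} hy hy' σ hσ k hk => by
        rw [smul_add, hy σ hσ k hk, hy' σ hσ k hk, nsmul_add]
      zero_mem' := fun σ _ k _ => by rw [smul_zero, nsmul_zero]
      smul_mem' := fun c y hy σ hσ k hk => by
        rw [m59sa_zmod_smul, smul_comm σ c.val y, hy σ hσ k hk, smul_comm] }
  have hEmem : ∀ y : m59sa_PTors P, y ∈ E ↔ (m59sa_frame2 P M hpM).ChiEigen y := fun _ => Iff.rfl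
  -- `χ` is ramified, `det = χ`
  obtain ⟨σ₀, hσ₀, k₀, hk₀, hne⟩ :=
    s44c_chiRam P.p P.hp2 (m59sa_frame2 P M hpM).A hA (m59sa_frame2 P M hpM).ζ hζ
  have hdet : LinearMap.det (galoisRepModuleEnd (K := s58_Qb) ℚ (s58_WQ P.W) P.p σ₀) =
      ((k₀ : ℕ) : ZMod P.p) := m59sa_det_chi P.W P.hΔ P.p P.hp2 hirr (M * P.p) hR hζ σ₀ k₀ hk₀
  have hΔQ : ((s58_WQ P.W)⁄s58_Qb).Δ ≠ 0 := by
    show ((P.W.map (Int.castRingHom ℚ)).map (algebraMap ℚ s58_Qb)).Δ ≠ 0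
    rw [WeierstrassCurve.map_Δ, WeierstrassCurve.map_Δ]
    simpa using P.hΔ
  have hV : Module.finrank (ZMod P.p) (m59sa_PTors P) = 2 :=
    ld_finrank_torsionBy (K := s58_Qb) (s58_WQ P.W) hΔQ P.hp2
  have hk1 : ((k₀ : ℕ) : ZMod P.p) ≠ 1 := by
    intro h
    apply hne
    have h2 : (((k₀ : ℤ) : ZMod P.p)) = ((1 : ℤ) : ZMod P.p) := by push_cast; exact h
    exact (ZMod.intCast_eq_intCast_iff _ _ _).mp h2
  have hk0 : ((k₀ : ℕ) : ZMod P.p) ≠ 0 := by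
    intro h
    obtain ⟨t, ht⟩ := (ZMod.natCast_eq_zero_iff k₀ P.p).mp h
    have h1 : σ₀ (m59sa_frame2 P M hpM).ζ = 1 := by
      rw [hk₀, ht, pow_mul, hζ.pow_eq_one, one_pow]
    have h2 : (m59sa_frame2 P M hpM).ζ = 1 := by
      apply σ₀.injective
      rw [h1, map_one]
    exact hζ.ne_one P.pp.one_lt h2
  -- (D2): some `σ y - y` is not zero
  have hD2 : ∃ σ ∈ (m59sa_frame2 P M hpM).Γ, ∃ y : m59sa_PTors P, σ • y - y ≠ 0 := by
    by_contra hcon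
    push Not at hcon
    have h1 : galoisRepModuleEnd (K := s58_Qb) ℚ (s58_WQ P.W) P.p σ₀ = 1 := by
      refine LinearMap.ext fun y => ?_
      rw [galoisRepModuleEnd_apply, Module.End.one_apply]
      exact sub_eq_zero.mp (hcon σ₀ hσ₀ y)
    rw [h1, map_one] at hdet
    exact hk1 hdet.symm
  -- (D1): some `v` is not `χ`-eigen
  have hD1 : ∃ v : m59sa_PTors P, v ∉ E := by
    by_contra hcon
    push Not at hcon
    have h1 : galoisRepModuleEnd (K := s58_Qb) ℚ (s58_WQ P.W) P.p σ₀ =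
        ((k₀ : ℕ) : ZMod P.p) • (1 : Module.End (ZMod P.p) (m59sa_PTors P)) := by
      refine LinearMap.ext fun y => ?_
      rw [galoisRepModuleEnd_apply, LinearMap.smul_apply, Module.End.one_apply,
        Nat.cast_smul_eq_nsmul]
      exact hcon y σ₀ hσ₀ k₀ hk₀
    rw [h1, LinearMap.det_smul, map_one, mul_one, hV] at hdet
    have h2 : ((k₀ : ℕ) : ZMod P.p) * (((k₀ : ℕ) : ZMod P.p) - 1) = 0 := by
      rw [mul_sub, mul_one, ← pow_two, hdet, sub_self]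
    rcases mul_eq_zero.mp h2 with h3 | h3
    · exact hk0 h3
    · exact hk1 (sub_eq_zero.mp h3)
  obtain ⟨σ₁, hσ₁, y₁, hx0⟩ := hD2
  obtain ⟨v, hv⟩ := hD1
  have hxE : σ₁ • y₁ - y₁ ∈ E := hinv σ₁ hσ₁ y₁
  have hline := m59sa_line hV E hxE hx0 hv
  -- the cocycle
  let a : s44_G → ℕ := fun σ =>
    if hσ : σ ∈ (m59sa_frame2 P M hpM).Γ then (hline (σ • v - v) (hinv σ hσ v)).choose else 0
  have hext : ∀ σ ∈ (m59sa_frame2 P M hpM).Γ, σ • v = v + a σ • (σ₁ • y₁ - y₁) := by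
    intro σ hσ
    have h1 := (hline (σ • v - v) (hinv σ hσ v)).choose_spec
    have h2 : a σ = (hline (σ • v - v) (hinv σ hσ v)).choose := dif_pos hσ
    rw [h2, ← h1]
    abel
  have hindep : ∀ m : ℤ, v ≠ m • (σ₁ • y₁ - y₁) := fun m hm =>
    hv (hm ▸ zsmul_mem hxE m)
  obtain ⟨β, hβ0, hβ1, hβ2, hβ3⟩ := hPeu (σ₁ • y₁ - y₁) v a ⟨hx0, hxE, hext, hindep⟩
  have hb : m59sa_IsLocBasis (m59sa_frame2 P M hpM) (σ₁ • y₁ - y₁) v a β :=
    ⟨hxE, hext, hindep, hβ0, hβ1, hβ2, hβ3⟩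
  have hsplitX : (m59sa_frame2 P M hpM).Split (ι (σ₁ • y₁ - y₁)) := by
    obtain ⟨h1, h2⟩ := hFr.psiEig (ι (σ₁ • y₁ - y₁)) (hpι _) (heig _ hxE)
    exact hFr.dich _ (hpι _) (hold _).1 (hold _).2 h1 h2
  exact hFr.big ι hι (σ₁ • y₁ - y₁) v a β hb hold hsplitX (fun hh => hv (hE v hh.1 hh.2))

/-- **[GEO-LOW] from the frame cells.** -/
theorem m59sa_geoLow_of
    (h : ∀ (P : m59sa_Pkg) (M : ℕ) [NeZero M] [NeZero (M * P.p)] (hpM : ¬ P.p ∣ M),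
      P.p = 3 ∨ P.p = 5 → P.W.IsSemistableModel → P.W.ModRepIsIrreducible P.p →
      Squarefree M → 2 ∣ M → m59sa_FrameOK (m59sa_frame2 P M hpM)) :
    m59sa_GeoLow_stmt := by
  intro p hpp hp W hΔ hW hirr M _ _ hsq h2M hpM hR ι hι hPeu
  have hp2 : p ≠ 2 := by rcases hp with rfl | rfl <;> norm_num
  exact m59sa_geoLow_pkg ⟨p, hpp, hp2, W, hΔ⟩ M hpM hirr hR
    (h ⟨p, hpp, hp2, W, hΔ⟩ M hpM hp hW hirr hsq h2M) ι hι hPeu

end Fermat.Agent.M59
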